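import Mathlib

/-!
# Row S15, DESC tower ENGINE (helper51): the exact index formula of the Eisenstein descent

Abstract algebra only (blueprint `coord/S15-DESC-blueprint.md`, sec. 1).

`G` a group acting additively on an abelian group `J`; `Y, W ≤ J` subgroups, `W ≤ Y`;
`F 0 ≤ F 1 ≤ … ≤ F D` a flag of `G`-stable subgroups with `F 0 = ⊥`, `F D = W`, `W` finite.
For a subgroup `F` put `cocSub G F = {y | ∀ s, s • y - y ∈ F}` and

* `Y_k = Y ⊓ cocSub G (F k)`   (so `Y_0 = Y ⊓ J^G`),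
* `V_k = W ⊓ cocSub G (F k)`   (so `V_0 = W^G`),
* `idx k = [Y_{k+1} : Y_k + F (k+1)]`            (`= |Sel_{k+1}|`),
* `gam k = [V_k ⊓ F (k+1) : F k]`                (`= |(F (k+1) / F k)^G|`).

`engine` :  `[Y_D + W : Y_0 + W] * ∏_{k<D} gam k = |W^G| * ∏_{k<D} idx k`
(indices are `AddSubgroup.relIndex`, with the convention `0 = ∞`), and
`engine_le` : the bound `[Y_D + W : Y_0 + W] ≤ |W^G|` from per-piece bounds
`idx k * r ^ e k ≤ gam k * r ^ m k` with `∑ m ≤ ∑ e`.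
-/

set_option autoImplicit false

namespace Fermat.Agent.S15.H51

open AddSubgroup

section Engine

variable (G : Type*) [Group G] {J : Type*} [AddCommGroup J] [DistribMulAction G J]

/-- The subgroup of all `y` whose cocycle `s ↦ s • y - y` takes its values in `F`. -/
def cocSub (F : AddSubgroup J) : AddSubgroup J where
  carrier := {y | ∀ s : G, s • y - y ∈ F}
  zero_mem' := fun s => by
    show s • (0 : J) - 0 ∈ F
    rw [smul_zero, sub_zero]
    exact F.zero_mem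
  add_mem' := by
    intro a b ha hb s
    have h : s • (a + b) - (a + b) = (s • a - a) + (s • b - b) := by
      rw [smul_add]; abel
    show s • (a + b) - (a + b) ∈ F
    rw [h]
    exact F.add_mem (ha s) (hb s)
  neg_mem' := by
    intro a ha s
    have h : s • (-a) - (-a) = -(s • a - a) := by
      rw [smul_neg]; abel
    show s • (-a) - (-a) ∈ F
    rw [h]
    exact F.neg_mem (ha s)

variable {G}

theorem mem_cocSub {F : AddSubgroup J} {y : J} : y ∈ cocSub G F ↔ ∀ s : G, s • y - y ∈ F :=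
  Iff.rfl

theorem mem_cocSub_bot {y : J} : y ∈ cocSub G (⊥ : AddSubgroup J) ↔ ∀ s : G, s • y = y := by
  rw [mem_cocSub]
  refine forall_congr' fun s => ?_
  rw [AddSubgroup.mem_bot, sub_eq_zero]

theorem cocSub_mono {F F' : AddSubgroup J} (h : F ≤ F') : cocSub G F ≤ cocSub G F' :=
  fun _ hy s => h (hy s)

theorem le_cocSub_of_stable {F : AddSubgroup J} (hF : ∀ s : G, ∀ t ∈ F, s • t ∈ F) :
    F ≤ cocSub G F :=
  fun t ht s => F.sub_mem (hF s t ht) ht

/-- One step of the engine, in terms of relative indices. -/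
theorem step_relIndex (Y W F' F : AddSubgroup J) (hWY : W ≤ Y) (hFF : F' ≤ F) (hFW : F ≤ W)
    (hF : ∀ s : G, ∀ t ∈ F, s • t ∈ F) :
    ((Y ⊓ cocSub G F') ⊔ F).relIndex (Y ⊓ cocSub G F) =
      ((W ⊓ cocSub G F') ⊔ F).relIndex (W ⊓ cocSub G F) *
        ((Y ⊓ cocSub G F') ⊔ W).relIndex ((Y ⊓ cocSub G F) ⊔ W) := by
  set Y' := Y ⊓ cocSub G F' with hY'
  set Y₁ := Y ⊓ cocSub G F with hY₁
  set V' := W ⊓ cocSub G F' with hV'
  set V₁ := W ⊓ cocSub G F with hV₁
  have hYY : Y' ≤ Y₁ := inf_le_inf_left Y (cocSub_mono hFF)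
  have hFV : F ≤ V₁ := le_inf hFW (le_cocSub_of_stable hF)
  have hVY : V₁ ≤ Y₁ := inf_le_inf_right _ hWY
  -- `Y₁ ⊓ W = V₁`
  have h1 : Y₁ ⊓ W = V₁ := by
    rw [hY₁, hV₁, inf_right_comm, inf_eq_right.mpr hWY]
  -- `V₁ ⊓ Y' = V'`
  have h2 : V₁ ⊓ Y' = V' := by
    apply le_antisymm
    · exact le_inf (inf_le_left.trans inf_le_left) (inf_le_right.trans inf_le_right)
    · exact le_inf (inf_le_inf_left W (cocSub_mono hFF))
        (le_inf (inf_le_left.trans hWY) inf_le_right)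
  -- second isomorphism theorem, twice
  have h3 : (Y' ⊔ W).relIndex (Y₁ ⊔ W) = (Y' ⊔ V₁).relIndex Y₁ := by
    have e1 : Y₁ ⊔ W = Y₁ ⊔ (Y' ⊔ W) := by
      rw [← sup_assoc, sup_eq_left.mpr hYY]
    rw [e1, AddSubgroup.relIndex_sup_right, ← AddSubgroup.inf_relIndex_right]
    congr 1
    -- `(Y' ⊔ W) ⊓ Y₁ = Y' ⊔ V₁`
    rw [sup_inf_assoc_of_le W hYY, inf_comm W Y₁, h1]
  have h4 : (Y' ⊔ F).relIndex (Y' ⊔ V₁) = (V' ⊔ F).relIndex V₁ := by
    have e1 : Y' ⊔ V₁ = V₁ ⊔ (Y' ⊔ F) := by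
      rw [sup_comm Y' F, ← sup_assoc, sup_eq_left.mpr hFV, sup_comm]
    rw [e1, AddSubgroup.relIndex_sup_right, ← AddSubgroup.inf_relIndex_right]
    congr 1
    -- `(Y' ⊔ F) ⊓ V₁ = V' ⊔ F`
    rw [sup_comm Y' F, sup_inf_assoc_of_le Y' hFV, inf_comm Y' V₁, h2, sup_comm]
  have h5 : Y' ⊔ F ≤ Y' ⊔ V₁ := sup_le_sup_left hFV Y'
  have h6 : Y' ⊔ V₁ ≤ Y₁ := sup_le hYY hVY
  rw [h3, ← h4, AddSubgroup.relIndex_mul_relIndex _ _ _ h5 h6]

/-- Lagrange's theorem in relative form. -/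
theorem card_mul_relIndex_of_le {H K : AddSubgroup J} (h : H ≤ K) :
    Nat.card H * H.relIndex K = Nat.card K := by
  have := AddSubgroup.relIndex_mul_relIndex (⊥ : AddSubgroup J) H K bot_le h
  rwa [AddSubgroup.relIndex_bot_left, AddSubgroup.relIndex_bot_left] at this

/-- The product formula `|H + K| |H ∩ K| = |H| |K|`. -/
theorem card_sup_mul_card_inf (H K : AddSubgroup J) :
    Nat.card ↥(H ⊔ K) * Nat.card ↥(H ⊓ K) = Nat.card H * Nat.card K := by
  have h1 := card_mul_relIndex_of_le (le_sup_right : K ≤ H ⊔ K)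
  have h2 := card_mul_relIndex_of_le (inf_le_left : H ⊓ K ≤ H)
  rw [AddSubgroup.relIndex_sup_right] at h1
  rw [AddSubgroup.inf_relIndex_left] at h2
  rw [← h1, ← h2]
  ring

/-- One step of the engine: the finite part. -/
theorem card_step (W F' F : AddSubgroup J) (hFF : F' ≤ F) (hFW : F ≤ W)
    (hF : ∀ s : G, ∀ t ∈ F, s • t ∈ F) :
    ((W ⊓ cocSub G F') ⊔ F).relIndex (W ⊓ cocSub G F) *
        (Nat.card ↥(W ⊓ cocSub G F') * Nat.card F) =
      Nat.card ↥(W ⊓ cocSub G F) * Nat.card ↥((W ⊓ cocSub G F') ⊓ F) := by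
  have hFV : F ≤ W ⊓ cocSub G F := le_inf hFW (le_cocSub_of_stable hF)
  have hVV : W ⊓ cocSub G F' ≤ W ⊓ cocSub G F := inf_le_inf_left W (cocSub_mono hFF)
  have h1 := card_mul_relIndex_of_le (sup_le hVV hFV)
  have h2 := card_sup_mul_card_inf (W ⊓ cocSub G F') F
  rw [← h2, ← h1]
  ring

section Flag

variable (G) (Y W : AddSubgroup J) (F : ℕ → AddSubgroup J)

/-- `[Y_{k+1} : Y_k + F (k+1)]`, the size of the `(k+1)`-st Selmer piece. -/
noncomputable def idx (k : ℕ) : ℕ :=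
  ((Y ⊓ cocSub G (F k)) ⊔ F (k + 1)).relIndex (Y ⊓ cocSub G (F (k + 1)))

/-- `[V_k ⊓ F (k+1) : F k] = |(F (k+1) / F k)^G|`. -/
noncomputable def gam (k : ℕ) : ℕ :=
  (F k).relIndex ((W ⊓ cocSub G (F k)) ⊓ F (k + 1))

variable {G Y W F}

/-- The hypotheses on the flag. -/
structure IsFlag (G : Type*) [Group G] {J : Type*} [AddCommGroup J] [DistribMulAction G J]
    (W : AddSubgroup J) (F : ℕ → AddSubgroup J) (D : ℕ) : Prop where
  zero : F 0 = ⊥
  top : F D = W
  mono : ∀ k, k < D → F k ≤ F (k + 1)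
  stable : ∀ k, k ≤ D → ∀ s : G, ∀ t ∈ F k, s • t ∈ F k

theorem IsFlag.le_top {D : ℕ} (h : IsFlag G W F D) : ∀ k, k ≤ D → F k ≤ W := by
  have key : ∀ j, j ≤ D → F (D - j) ≤ W := by
    intro j
    induction j with
    | zero => intro _; exact h.top.le
    | succ j ih =>
      intro hj
      have h1 : F (D - (j + 1)) ≤ F (D - (j + 1) + 1) := h.mono _ (by omega)
      have h2 : D - (j + 1) + 1 = D - j := by omega
      rw [h2] at h1
      exact h1.trans (ih (by omega))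
  intro k hk
  have := key (D - k) (by omega)
  rwa [Nat.sub_sub_self hk] at this

theorem IsFlag.card_pos [Finite W] {D : ℕ} (h : IsFlag G W F D) (k : ℕ) (hk : k ≤ D) :
    0 < Nat.card ↥(F k) := by
  have : Finite ↥(F k) :=
    Finite.of_injective _ (AddSubgroup.inclusion_injective (h.le_top k hk))
  exact Nat.card_pos

theorem card_inf_pos [Finite W] (H : AddSubgroup J) : 0 < Nat.card ↥(W ⊓ H) := by
  have : Finite ↥(W ⊓ H) :=
    Finite.of_injective _ (AddSubgroup.inclusion_injective (inf_le_left : W ⊓ H ≤ W))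
  exact Nat.card_pos

/-- `|V_k ⊓ F (k+1)| = |F k| * gam k`. -/
theorem card_mul_gam {D : ℕ} (h : IsFlag G W F D) (k : ℕ) (hk : k < D) :
    Nat.card ↥(F k) * gam G W F k = Nat.card ↥((W ⊓ cocSub G (F k)) ⊓ F (k + 1)) := by
  apply card_mul_relIndex_of_le
  exact le_inf (le_inf (h.le_top k hk.le) (le_cocSub_of_stable (h.stable k hk.le)))
    (h.mono k hk)

/-- The invariant of the induction along the flag. -/
theorem engine_aux [Finite W] (hWY : W ≤ Y) {D : ℕ} (h : IsFlag G W F D) :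
    ∀ k, k ≤ D →
      ((Y ⊓ cocSub G (F 0)) ⊔ W).relIndex ((Y ⊓ cocSub G (F k)) ⊔ W) *
          Nat.card ↥(W ⊓ cocSub G (F k)) * ∏ i ∈ Finset.range k, gam G W F i =
        (∏ i ∈ Finset.range k, idx G Y F i) * Nat.card ↥(W ⊓ cocSub G (F 0)) *
          Nat.card ↥(F k) := by
  intro k
  induction k with
  | zero =>
    intro _
    rw [AddSubgroup.relIndex_self, Finset.range_zero, Finset.prod_empty, Finset.prod_empty,
      h.zero, AddSubgroup.card_bot]
  | succ k ih =>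
    intro hk
    have hk' : k < D := hk
    have ih' := ih hk'.le
    have hstep := step_relIndex (G := G) Y W (F k) (F (k + 1)) hWY (h.mono k hk')
      (h.le_top (k + 1) hk) (h.stable (k + 1) hk)
    have hcard := card_step (G := G) W (F k) (F (k + 1)) (h.mono k hk')
      (h.le_top (k + 1) hk) (h.stable (k + 1) hk)
    have hgam := card_mul_gam h k hk'
    have hchain : ((Y ⊓ cocSub G (F 0)) ⊔ W).relIndex ((Y ⊓ cocSub G (F k)) ⊔ W) *
        ((Y ⊓ cocSub G (F k)) ⊔ W).relIndex ((Y ⊓ cocSub G (F (k + 1))) ⊔ W) =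
        ((Y ⊓ cocSub G (F 0)) ⊔ W).relIndex ((Y ⊓ cocSub G (F (k + 1))) ⊔ W) := by
      apply AddSubgroup.relIndex_mul_relIndex
      · apply sup_le_sup_right
        apply inf_le_inf_left
        apply cocSub_mono
        rw [h.zero]
        exact bot_le
      · exact sup_le_sup_right (inf_le_inf_left Y (cocSub_mono (h.mono k hk'))) W
    have hV : 0 < Nat.card ↥(W ⊓ cocSub G (F k)) := card_inf_pos _
    have hFk : 0 < Nat.card ↥(F k) := h.card_pos k hk'.le
    rw [Finset.prod_range_succ, Finset.prod_range_succ]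
    have hidx : idx G Y F k = ((W ⊓ cocSub G (F k)) ⊔ F (k + 1)).relIndex
        (W ⊓ cocSub G (F (k + 1))) *
        ((Y ⊓ cocSub G (F k)) ⊔ W).relIndex ((Y ⊓ cocSub G (F (k + 1))) ⊔ W) := hstep
    rw [hidx, ← hchain]
    set R := ((Y ⊓ cocSub G (F 0)) ⊔ W).relIndex ((Y ⊓ cocSub G (F k)) ⊔ W)
    set b := ((Y ⊓ cocSub G (F k)) ⊔ W).relIndex ((Y ⊓ cocSub G (F (k + 1))) ⊔ W)
    set a := ((W ⊓ cocSub G (F k)) ⊔ F (k + 1)).relIndex (W ⊓ cocSub G (F (k + 1)))
    set Vk := Nat.card ↥(W ⊓ cocSub G (F k))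
    set Vk1 := Nat.card ↥(W ⊓ cocSub G (F (k + 1)))
    set V0 := Nat.card ↥(W ⊓ cocSub G (F 0))
    set Fk := Nat.card ↥(F k)
    set Fk1 := Nat.card ↥(F (k + 1))
    set P := ∏ i ∈ Finset.range k, gam G W F i
    set I := ∏ i ∈ Finset.range k, idx G Y F i
    set g := gam G W F k
    set n := Nat.card ↥((W ⊓ cocSub G (F k)) ⊓ F (k + 1))
    -- ih' : R * Vk * P = I * V0 * Fk ; hcard : a * (Vk * Fk1) = Vk1 * n ; hgam : Fk * g = n
    apply Nat.eq_of_mul_eq_mul_right (Nat.mul_pos hV hFk)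
    calc R * b * Vk1 * (P * g) * (Vk * Fk)
        = (R * Vk * P) * b * (Vk1 * (Fk * g)) := by ring
      _ = (I * V0 * Fk) * b * (a * (Vk * Fk1)) := by rw [ih', hgam, hcard]
      _ = I * (a * b) * V0 * Fk1 * (Vk * Fk) := by ring

/-- **ENGINE** (exact form).
`[Y_D + W : Y_0 + W] * ∏ |(F (k+1) / F k)^G| = |W^G| * ∏ [Y_{k+1} : Y_k + F (k+1)]`. -/
theorem engine [Finite W] (hWY : W ≤ Y) {D : ℕ} (h : IsFlag G W F D) :
    ((Y ⊓ cocSub G (⊥ : AddSubgroup J)) ⊔ W).relIndex (Y ⊓ cocSub G W) *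
        ∏ i ∈ Finset.range D, gam G W F i =
      Nat.card ↥(W ⊓ cocSub G (⊥ : AddSubgroup J)) * ∏ i ∈ Finset.range D, idx G Y F i := by
  have key := engine_aux hWY h D le_rfl
  rw [h.zero, h.top] at key
  have hWW : W ≤ cocSub G W := by
    apply le_cocSub_of_stable
    have := h.stable D le_rfl
    rwa [h.top] at this
  have h1 : W ⊓ cocSub G W = W := inf_eq_left.mpr hWW
  have h2 : (Y ⊓ cocSub G W) ⊔ W = Y ⊓ cocSub G W := sup_eq_left.mpr (le_inf hWY hWW)
  rw [h1, h2] at key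
  have hW : 0 < Nat.card ↥W := Nat.card_pos
  apply Nat.eq_of_mul_eq_mul_right hW
  calc _ = (Y ⊓ cocSub G ⊥ ⊔ W).relIndex (Y ⊓ cocSub G W) * Nat.card ↥W *
        ∏ i ∈ Finset.range D, gam G W F i := by ring
    _ = _ := key
    _ = _ := by ring

/-- **ENGINE** (inequality form = SEL-BOUND).  If every Selmer piece is finite and bounded by
`idx k * r ^ e k ≤ gam k * r ^ m k`, with `∑ m ≤ ∑ e`, then
`0 < [Y_D : Y_0 + W] ≤ |W^G|`. -/
theorem engine_le [Finite W] (hWY : W ≤ Y) {D : ℕ} (h : IsFlag G W F D) {r : ℕ} (hr : 0 < r)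
    (e m : ℕ → ℕ) (hidx : ∀ k, k < D → idx G Y F k ≠ 0)
    (hbound : ∀ k, k < D → idx G Y F k * r ^ e k ≤ gam G W F k * r ^ m k)
    (hsum : ∑ k ∈ Finset.range D, m k ≤ ∑ k ∈ Finset.range D, e k) :
    ((Y ⊓ cocSub G (⊥ : AddSubgroup J)) ⊔ W).relIndex (Y ⊓ cocSub G W) ≠ 0 ∧
      ((Y ⊓ cocSub G (⊥ : AddSubgroup J)) ⊔ W).relIndex (Y ⊓ cocSub G W) ≤
        Nat.card ↥(W ⊓ cocSub G (⊥ : AddSubgroup J)) := by
  have key := engine hWY h
  set R := ((Y ⊓ cocSub G (⊥ : AddSubgroup J)) ⊔ W).relIndex (Y ⊓ cocSub G W)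
  set N := Nat.card ↥(W ⊓ cocSub G (⊥ : AddSubgroup J))
  have hN : 0 < N := card_inf_pos _
  have hI : 0 < ∏ i ∈ Finset.range D, idx G Y F i :=
    Finset.prod_pos fun i hi => Nat.pos_of_ne_zero (hidx i (Finset.mem_range.mp hi))
  have hprod : (∏ i ∈ Finset.range D, idx G Y F i) * r ^ (∑ k ∈ Finset.range D, e k) ≤
      (∏ i ∈ Finset.range D, gam G W F i) * r ^ (∑ k ∈ Finset.range D, m k) := by
    rw [← Finset.prod_pow_eq_pow_sum, ← Finset.prod_pow_eq_pow_sum, ← Finset.prod_mul_distrib,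
      ← Finset.prod_mul_distrib]
    exact Finset.prod_le_prod' fun i hi => hbound i (Finset.mem_range.mp hi)
  have hprod' : (∏ i ∈ Finset.range D, idx G Y F i) ≤ ∏ i ∈ Finset.range D, gam G W F i := by
    have h1 : (∏ i ∈ Finset.range D, gam G W F i) * r ^ (∑ k ∈ Finset.range D, m k) ≤
        (∏ i ∈ Finset.range D, gam G W F i) * r ^ (∑ k ∈ Finset.range D, e k) :=
      Nat.mul_le_mul_left _ (Nat.pow_le_pow_right hr hsum)
    exact Nat.le_of_mul_le_mul_right (hprod.trans h1) (Nat.pow_pos hr)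
  have hG : 0 < ∏ i ∈ Finset.range D, gam G W F i := lt_of_lt_of_le hI hprod'
  constructor
  · intro hR
    rw [hR, zero_mul] at key
    have := Nat.mul_pos hN hI
    omega
  · apply Nat.le_of_mul_le_mul_right _ hG
    rw [key]
    exact Nat.mul_le_mul_left _ hprod'

end Flag



section Consumers

variable {Y W : AddSubgroup J} {F : ℕ → AddSubgroup J}

/-- The kernel of the `k`-th Selmer map: `y ∈ Y_k + F'` iff the cocycle of `y` is, modulo `F`,
the coboundary of an element of `F'`. -/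
theorem mem_sup_iff_exists_coboundary {F₀ F₁ : AddSubgroup J} (hF₁ : F₁ ≤ Y) {y : J}
    (hy : y ∈ Y) :
    y ∈ (Y ⊓ cocSub G F₀) ⊔ F₁ ↔ ∃ t ∈ F₁, ∀ s : G, (s • y - y) - (s • t - t) ∈ F₀ := by
  constructor
  · intro h
    obtain ⟨y', hy', t, ht, rfl⟩ := AddSubgroup.mem_sup.mp h
    refine ⟨t, ht, fun s => ?_⟩
    have h1 : s • (y' + t) - (y' + t) - (s • t - t) = s • y' - y' := by
      rw [smul_add]; abel
    rw [h1]
    exact hy'.2 s
  · rintro ⟨t, ht, h⟩
    have h1 : y = (y - t) + t := by abel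
    rw [h1]
    refine AddSubgroup.add_mem_sup ⟨Y.sub_mem hy (hF₁ ht), fun s => ?_⟩ ht
    have h2 : s • (y - t) - (y - t) = (s • y - y) - (s • t - t) := by
      rw [smul_sub]; abel
    rw [h2]
    exact h s

/-- Bounding a relative index by a map which is injective modulo the smaller subgroup. -/
theorem relIndex_le_of_map {H K : AddSubgroup J} {S : Type*} [Finite S] (φ : K → S)
    (hφ : ∀ y y' : K, φ y = φ y' → (y : J) - y' ∈ H) :
    H.relIndex K ≠ 0 ∧ H.relIndex K ≤ Nat.card S := by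
  rw [AddSubgroup.relIndex, AddSubgroup.index_eq_card]
  let ψ : (K ⧸ H.addSubgroupOf K) → S := fun q => φ (Quotient.out q)
  have hψ : Function.Injective ψ := by
    intro q q' hqq
    have h1 := hφ _ _ hqq
    rw [← Quotient.out_eq q, ← Quotient.out_eq q']
    apply (QuotientAddGroup.eq (s := H.addSubgroupOf K)).mpr
    rw [AddSubgroup.mem_addSubgroupOf]
    have h2 : ((-(Quotient.out q) + Quotient.out q' : K) : J) =
        -((Quotient.out q : K) - (Quotient.out q' : K) : J) := by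
      push_cast
      abel
    rw [h2]
    exact H.neg_mem h1
  have hfin : Finite (K ⧸ H.addSubgroupOf K) := Finite.of_injective ψ hψ
  exact ⟨Nat.card_pos.ne', Nat.card_le_card_of_injective ψ hψ⟩

/-- The `k`-th Selmer piece is bounded by the size of any set into which it injects. -/
theorem idx_le_of_map (k : ℕ) {S : Type*} [Finite S]
    (φ : ↥(Y ⊓ cocSub G (F (k + 1))) → S)
    (hφ : ∀ y y' : ↥(Y ⊓ cocSub G (F (k + 1))), φ y = φ y' →
      (y : J) - y' ∈ (Y ⊓ cocSub G (F k)) ⊔ F (k + 1)) :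
    idx G Y F k ≠ 0 ∧ idx G Y F k ≤ Nat.card S :=
  relIndex_le_of_map φ hφ

end Consumers

end Engine

end Fermat.Agent.S15.H51
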