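import Fermat.Agent.S15.H975.DescSpec
import Fermat.Agent.S15.H51.Engine

/-!
# Row S15, DESC leaf ENGINE (helper51): `engineStatement : H975.EngineStatement`

The frozen leaf ENGINE of `Fermat/Agent/S15/H975/DescSpec.lean`, from the abstract index formula
`H51.engine_le` and the count of the jumps of `F i ⊓ K`, `F i ⊓ U` along the flag
(`card_eq_pow_jumps`).  Pure algebra, no `sorry`.
-/

set_option autoImplicit false
set_option linter.unusedSectionVars false

namespace Fermat.Agent.S15.H51

open AddSubgroup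

section Jumps

variable {J : Type*} [AddCommGroup J]

/-- For `M ≤ L` the index `[M : H ∩ M]` divides `[L : H ∩ L]`. -/
theorem relIndex_dvd_relIndex_of_le (H : AddSubgroup J) {M L : AddSubgroup J} (h : M ≤ L) :
    H.relIndex M ∣ H.relIndex L := by
  have h1 := AddSubgroup.relIndex_ker M (QuotientAddGroup.mk' H)
  have h2 := AddSubgroup.relIndex_ker L (QuotientAddGroup.mk' H)
  rw [QuotientAddGroup.ker_mk'] at h1 h2
  rw [h1, h2]
  exact AddSubgroup.card_dvd_of_le (AddSubgroup.map_mono h)

open Classical in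
/-- Along a flag with steps of prime index `r`, the order of a subgroup `U` is `r` to the number
of jumps of `F i ⊓ U`. -/
theorem card_inf_eq_pow_jumps {F : ℕ → AddSubgroup J} {D r : ℕ} (hr : r.Prime)
    (h0 : F 0 = ⊥) (hmono : ∀ i < D, F i ≤ F (i + 1))
    (hidx : ∀ i < D, (F i).relIndex (F (i + 1)) = r) (U : AddSubgroup J) :
    ∀ k, k ≤ D → Nat.card ↥(F k ⊓ U) =
      r ^ ((Finset.range k).filter fun i => ¬ F (i + 1) ⊓ U ≤ F i).card := by
  intro k
  induction k with
  | zero =>
    intro _
    rw [h0, bot_inf_eq, AddSubgroup.card_bot]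
    simp
  | succ k ih =>
    intro hk
    have hk' : k < D := hk
    have hle : F k ⊓ U ≤ F (k + 1) ⊓ U := inf_le_inf_right U (hmono k hk')
    have h1 := card_mul_relIndex_of_le hle
    have h2 : (F k ⊓ U).relIndex (F (k + 1) ⊓ U) = (F k).relIndex (F (k + 1) ⊓ U) := by
      have e : F k ⊓ U = F k ⊓ (F (k + 1) ⊓ U) := by
        rw [← inf_assoc, inf_eq_left.mpr (hmono k hk')]
      rw [e, AddSubgroup.inf_relIndex_right]
    have h3 : (F k).relIndex (F (k + 1) ⊓ U) ∣ r := by
      rw [← hidx k hk']
      exact relIndex_dvd_relIndex_of_le (F k) inf_le_left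
    rw [← h1, h2, ih hk'.le, Finset.range_add_one, Finset.filter_insert]
    by_cases hj : F (k + 1) ⊓ U ≤ F k
    · rw [if_neg (not_not.mpr hj), AddSubgroup.relIndex_eq_one.mpr hj, mul_one]
    · rw [if_pos hj, Finset.card_insert_of_notMem (by simp), pow_succ]
      rcases (Nat.dvd_prime hr).mp h3 with h4 | h4
      · exact absurd (AddSubgroup.relIndex_eq_one.mp h4) hj
      · rw [h4]

end Jumps

section Leaf

open ModularCurve

variable (p : ℕ) [NeZero p]

/-- `{y | r y ∈ A}`: the `r`-division points of the rational points. -/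
def divSub (r : ℕ) : AddSubgroup (JZero p) where
  carrier := {y | ∀ σ : H975.Gal, σ • (r • y) = r • y}
  zero_mem' := fun σ => by rw [smul_zero, smul_zero]
  add_mem' := by
    intro a b ha hb σ
    rw [nsmul_add, smul_add σ (r • a) (r • b), ha σ, hb σ]
  neg_mem' := by
    intro a ha σ
    rw [neg_nsmul, smul_neg σ (r • a), ha σ]

theorem sel_eq_inf (r : ℕ) (F : AddSubgroup (JZero p)) :
    H975.sel p r F = divSub p r ⊓ cocSub H975.Gal F := by
  ext y
  exact Iff.rfl

theorem rat_eq_inf (r : ℕ) :
    H975.rat p = divSub p r ⊓ cocSub H975.Gal (⊥ : AddSubgroup (JZero p)) := by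
  ext y
  constructor
  · intro hy
    refine ⟨fun σ => ?_, mem_cocSub_bot.mpr hy⟩
    have h1 := map_nsmul (DistribSMul.toAddMonoidHom (JZero p) σ) r y
    have h2 : σ • (r • y) = r • (σ • y) := h1
    rw [h2, hy σ]
  · intro hy
    exact mem_cocSub_bot.mp hy.2

theorem eis_le_divSub (S : Set ℕ) (r : ℕ) : H975.eis p S r ≤ divSub p r := by
  intro w hw σ
  have h1 : r • w = 0 := hw.1
  rw [h1]
  exact smul_zero (A := JZero p) σ

theorem eis_le_tors (S : Set ℕ) (r : ℕ) : H975.eis p S r ≤ H975.tors p r :=
  fun _ hw => hw.1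

/-- **Leaf ENGINE** of the frozen skeleton `H975/DescSpec.lean`. -/
theorem engineStatement : H975.EngineStatement := by
  intro p _ S r hr hWfin K U hK hU hKU D F hF hstep
  classical
  obtain ⟨hF0, hFD, hpiece⟩ := hF
  have : Finite ↥(H975.eis p S r) :=
    Finite.of_injective _ (AddSubgroup.inclusion_injective (eis_le_tors p S r))
  have hmono : ∀ k, k < D → F k ≤ F (k + 1) := fun k hk => (hpiece k hk).1
  have hstab : ∀ k, k ≤ D → ∀ s : H975.Gal, ∀ t ∈ F k, s • t ∈ F k := by
    intro k hk
    rcases Nat.lt_or_ge k D with h | h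
    · exact (hpiece k h).2.1
    · have hkD : k = D := le_antisymm hk h
      rcases Nat.eq_zero_or_pos D with h0 | h0
      · intro s t ht
        rw [hkD, h0, hF0, AddSubgroup.mem_bot] at ht
        rw [ht, show s • (0 : JZero p) = 0 from smul_zero (A := JZero p) s]
        exact (F k).zero_mem
      · have h1 := (hpiece (D - 1) (by omega)).2.2.1
        have h2 : D - 1 + 1 = k := by omega
        rw [h2] at h1
        exact h1
  have hflag : H51.IsFlag H975.Gal (H975.eis p S r) F D := ⟨hF0, hFD, hmono, hstab⟩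
  have hrel : ∀ i, i < D → (F i).relIndex (F (i + 1)) = r := fun i hi => (hpiece i hi).2.2.2.1
  have hWY := eis_le_divSub p S r
  -- the indices of the skeleton are the indices of the abstract engine
  have hsel : ∀ k, H975.selIndex p r (F k) (F (k + 1)) = idx H975.Gal (divSub p r) F k := by
    intro k
    unfold H975.selIndex idx
    rw [sel_eq_inf, sel_eq_inf]
  have hfix : ∀ k, k < D →
      H975.fixIndex p r (F k) (F (k + 1)) = gam H975.Gal (H975.eis p S r) F k := by
    intro k hk
    unfold H975.fixIndex gam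
    congr 1
    rw [sel_eq_inf]
    have hle : F (k + 1) ≤ H975.eis p S r := hflag.le_top (k + 1) hk
    apply le_antisymm
    · exact le_inf (le_inf (inf_le_left.trans hle) (inf_le_right.trans inf_le_right)) inf_le_left
    · exact le_inf inf_le_right
        (le_inf (inf_le_right.trans (hle.trans hWY)) (inf_le_left.trans inf_le_right))
  -- the exponents
  let e : ℕ → ℕ := fun i => if F (i + 1) ⊓ K ≤ F i then 1 else 0
  let m : ℕ → ℕ := fun i => if F (i + 1) ⊓ U ≤ F i then 0 else 1
  have hidx : ∀ k, k < D → idx H975.Gal (divSub p r) F k ≠ 0 := by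
    intro k hk
    rw [← hsel]
    exact (hstep k hk).1
  have hbound : ∀ k, k < D → idx H975.Gal (divSub p r) F k * r ^ e k ≤
      gam H975.Gal (H975.eis p S r) F k * r ^ m k := by
    intro k hk
    obtain ⟨-, h1, h2, h3, h4⟩ := hstep k hk
    rw [← hsel, ← hfix k hk]
    by_cases hK' : F (k + 1) ⊓ K ≤ F k <;> by_cases hU' : F (k + 1) ⊓ U ≤ F k
    · simp only [e, m, if_pos hK', if_pos hU', pow_one, pow_zero, mul_one]
      exact h1 hK' hU'
    · simp only [e, m, if_pos hK', if_neg hU', pow_one]
      exact Nat.mul_le_mul_right r (h2 hK' hU')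
    · simp only [e, m, if_neg hK', if_pos hU', pow_zero, mul_one]
      exact h3 hK' hU'
    · simp only [e, m, if_neg hK', if_neg hU', pow_zero, pow_one, mul_one]
      rw [mul_comm]
      exact h4 hK' hU'
  -- the count of the jumps
  have hjump := fun V : AddSubgroup (JZero p) =>
    card_inf_eq_pow_jumps hr hF0 hmono hrel V D le_rfl
  have hcardU : Nat.card ↥U =
      r ^ ((Finset.range D).filter fun i => ¬ F (i + 1) ⊓ U ≤ F i).card := by
    rw [← hjump U, hFD, inf_eq_right.mpr hU]
  have hcardK : Nat.card ↥K =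
      r ^ ((Finset.range D).filter fun i => ¬ F (i + 1) ⊓ K ≤ F i).card := by
    rw [← hjump K, hFD, inf_eq_right.mpr hK]
  have hcardW : Nat.card ↥(H975.eis p S r) = r ^ D := by
    have h1 := hjump (H975.eis p S r)
    rw [hFD, inf_idem] at h1
    rw [h1]
    congr 1
    have h2 : ((Finset.range D).filter fun i => ¬ F (i + 1) ⊓ H975.eis p S r ≤ F i) =
        Finset.range D := by
      apply Finset.filter_true_of_mem
      intro i hi hle
      have hi' : i < D := Finset.mem_range.mp hi
      have h3 : F (i + 1) ≤ F i := by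
        rw [inf_eq_left.mpr (hflag.le_top (i + 1) hi')] at hle
        exact hle
      have h4 := AddSubgroup.relIndex_eq_one.mpr h3
      rw [hrel i hi'] at h4
      exact hr.one_lt.ne' h4
    rw [h2, Finset.card_range]
  have hsum : ∑ k ∈ Finset.range D, m k ≤ ∑ k ∈ Finset.range D, e k := by
    have hm : ∑ k ∈ Finset.range D, m k =
        ((Finset.range D).filter fun i => ¬ F (i + 1) ⊓ U ≤ F i).card := by
      rw [Finset.card_filter]
      refine Finset.sum_congr rfl fun i _ => ?_
      by_cases h : F (i + 1) ⊓ U ≤ F i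
      · simp [m, h]
      · simp [m, h]
    have he : ∑ k ∈ Finset.range D, e k =
        ((Finset.range D).filter fun i => F (i + 1) ⊓ K ≤ F i).card := by
      rw [Finset.card_filter]
    have hsplit := Finset.card_filter_add_card_filter_not
      (s := Finset.range D) (fun i => F (i + 1) ⊓ K ≤ F i)
    rw [Finset.card_range] at hsplit
    rw [hm, he]
    rw [hcardU, hcardK, hcardW, ← pow_add] at hKU
    have := (Nat.pow_le_pow_iff_right hr.one_lt).mp hKU
    omega
  obtain ⟨hne, hle⟩ := engine_le hWY hflag hr.pos e m hidx hbound hsum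
  have hrat : H975.rat p ⊔ H975.eis p S r =
      (divSub p r ⊓ cocSub H975.Gal (⊥ : AddSubgroup (JZero p))) ⊔ H975.eis p S r := by
    rw [← rat_eq_inf]
  have hfixW : H975.eis p S r ⊓ H975.rat p =
      H975.eis p S r ⊓ cocSub H975.Gal (⊥ : AddSubgroup (JZero p)) := by
    rw [rat_eq_inf p r, ← inf_assoc, inf_eq_left.mpr hWY]
  unfold H975.SelBound
  rw [hrat, sel_eq_inf, hfixW]
  exact ⟨hne, hle⟩

end Leaf

end Fermat.Agent.S15.H51
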